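import Fermat.Agent.LT.A2.H112.Diag

/-!
# Row LT, tower A2, leaf A2.09 `ExpC` (helper112) -- part 4: the analytic core

OFF-MAIN.  For an admissible pair `(g, m_g)` and `ξ ∈ K²`:

    h(m, ξ) = F g (m m_g) ξ · χT(m m_g),        I(ξ) = ∫_{DT} h(m, ξ) dm.

* `hasSum_Ifun112`: `∑_ξ I(ξ) = φ(g)` (dominated convergence on the relatively compact `DT`);
* `Ifun_zero112`: `I(0) = 0` (`χT` is not trivial on `T¹`);
* `integral_hfun_eq_tsum112`: `∫_{T¹(𝔸)} h(m, ξ₀) dm = ∑_{γ ∈ T¹(K)} I(γ ξ₀)` for `ξ₀ ≠ 0` (unfolding).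
-/

set_option autoImplicit false
set_option linter.unusedSectionVars false

open IsDedekindDomain NumberField AutomorphicForm MeasureTheory
open scoped MatrixGroups Pointwise

noncomputable section

namespace Fermat.Agent.LT.A2.H112

open Fermat.Agent.LT.H130 Fermat.Agent.LT.H556 Fermat.Agent.LT.A2

variable {K : Type} [Field K] [NumberField K]

attribute [local instance] measG112 borelG112

/-- The integrand `h(m, ξ) = F g (m m_g) ξ · χT(m m_g)`. -/
def hfun (D : KData K) (g mg : A0.G K) (m : A0.G K) (ξ : K × K) : ℂ :=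
  D.F g (m * mg) (ratV ξ) * D.χT (m * mg)

/-- `I(ξ) = ∫_{DT} h(m, ξ) dm`. -/
def Ifun (D : KData K) (g mg : A0.G K) (ξ : K × K) : ℂ :=
  ∫ m in D.DT, hfun D g mg m ξ ∂D.μT

variable (D : KData K) {g mg : A0.G K}

theorem norm_chi112 (hT : IsTorusChar D.t D.n D.χT) {m : A0.G K} (hm : InTorus D.t D.n m) :
    ‖D.χT m‖ = 1 := by
  obtain ⟨k, hk, hpow⟩ := hT.fin_order
  exact Complex.norm_eq_one_of_pow_eq_one (hpow m hm) hk.ne'

theorem exists_bound112 (hG : D.Good) (hadm : Adm D.t D.n g mg) :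
    ∃ b : K × K → ℝ, Summable b ∧ (∀ ξ, 0 ≤ b ξ) ∧
      ∀ m ∈ D.DT, ∀ ξ, ‖hfun D g mg m ξ‖ ≤ b ξ := by
  obtain ⟨C₀, hC₀, hsub⟩ := hG.measured.dom_compact
  have hcont : Continuous (fun m : A0.G K => ((g, m * mg) : A0.G K × A0.G K)) :=
    continuous_const.prodMk (continuous_mul_const mg)
  obtain ⟨b, hb, hbound⟩ := hG.regular.loc_summable _ (hC₀.image hcont)
  refine ⟨fun ξ => |b ξ|, hb.abs, fun ξ => abs_nonneg _, ?_⟩
  intro m hm ξ
  have hmT : InTorus1 D.t D.n m := hG.measured.dom_sub m hm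
  have hadm' : Adm D.t D.n g (m * mg) := adm_torus1_mul112 hadm hmT
  have h1 := hbound ξ (g, m * mg) ⟨m, hsub hm, rfl⟩ hadm'
  have h2 : ‖hfun D g mg m ξ‖ = ‖D.F g (m * mg) (ratV ξ)‖ := by
    rw [hfun, norm_mul, norm_chi112 D hG.torus hadm'.1, mul_one]
  rw [h2]
  exact h1.trans (le_abs_self _)

theorem continuousOn_hfun112 (hG : D.Good) (hadm : Adm D.t D.n g mg) (ξ : K × K) :
    ContinuousOn (fun m => hfun D g mg m ξ) {m | InTorus1 D.t D.n m} := by
  have hcont : Continuous (fun m : A0.G K => ((g, m * mg) : A0.G K × A0.G K)) :=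
    continuous_const.prodMk (continuous_mul_const mg)
  have h1 : ContinuousOn (fun m : A0.G K => D.F g (m * mg) (ratV ξ))
      {m | InTorus1 D.t D.n m} := by
    have := (hG.regular.cont_pair (ratV ξ)).comp hcont.continuousOn
      (s := {m | InTorus1 D.t D.n m}) (fun m hm => adm_torus1_mul112 hadm hm)
    exact this
  have h2 : ContinuousOn (fun m : A0.G K => D.χT (m * mg)) {m | InTorus1 D.t D.n m} := by
    have := hG.torus.cont.comp (continuous_mul_const mg).continuousOn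
      (s := {m | InTorus1 D.t D.n m}) (fun m hm => (adm_torus1_mul112 hadm hm).1)
    exact this
  exact h1.mul h2

theorem hfun_smul112 (hG : D.Good) (hadm : Adm D.t D.n g mg) (γ : gammaT D.t D.n)
    {m : A0.G K} (hm : InTorus1 D.t D.n m) (ξ : K × K) :
    hfun D g mg (γ⁻¹ • m) ξ = hfun D g mg m (mulK D.t D.n (coordK γ) ξ) := by
  have hadm' : Adm D.t D.n g (m * mg) := adm_torus1_mul112 hadm hm
  have hγ : InTorus1 D.t D.n ((γ⁻¹ : gammaT D.t D.n) : A0.G K) := (γ⁻¹).2.2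
  have e1 : (γ⁻¹ • m) * mg = ((γ⁻¹ : gammaT D.t D.n) : A0.G K) * (m * mg) := by
    rw [smul_def_gammaT, mul_assoc]
  rw [hfun, hfun, e1, hG.weil.tor1 _ hγ g (m * mg) _ hadm', Subgroup.coe_inv, inv_inv,
    actV_gammaT, hG.torus.mul _ _ (inTorus_inv112 γ.2.2.1) hadm'.1,
    hG.torus.rat _ (inTorusRat_inv112 γ.2.1), one_mul]

theorem Ifun_zero112 (hG : D.Good) (hadm : Adm D.t D.n g mg) : Ifun D g mg 0 = 0 := by
  have h1 : ∀ m ∈ D.DT, hfun D g mg m 0
      = (D.F g mg (ratV 0) * D.χT mg) * D.χT m := by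
    intro m hm
    have hmT : InTorus1 D.t D.n m := hG.measured.dom_sub m hm
    rw [hfun, hG.weil.tor1 m hmT g mg _ hadm, ratV_zero112, actV_zero112,
      hG.torus.mul _ _ hmT.1 hadm.1]
    ring
  rw [Ifun, setIntegral_congr_fun hG.measured.dom_meas h1, integral_const_mul,
    integral_chi_zero112 D hG.measured hG.torus, mul_zero]

theorem hasSum_Ifun112 (hG : D.Good) (hadm : Adm D.t D.n g mg) {φ : A0.G K → ℂ}
    (hφ : D.IsLift φ) : HasSum (Ifun D g mg) (φ g) := by
  have : Countable K := countableK112 K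
  obtain ⟨b, hb, -, hbound⟩ := exists_bound112 D hG hadm
  have hmeasDT := hG.measured.dom_meas
  have hφg : φ g = ∫ m in D.DT, D.theta g (m * mg) * D.χT (m * mg) ∂D.μT :=
    hφ.formula g mg hadm
  rw [hφg]
  refine hasSum_integral_of_dominated_convergence (fun ξ _ => b ξ) ?_ ?_ ?_ ?_ ?_
  · intro ξ
    exact ((continuousOn_hfun112 D hG hadm ξ).mono
      (fun m hm => hG.measured.dom_sub m hm)).aestronglyMeasurable hmeasDT
  · intro ξ
    exact ae_restrict_of_forall_mem hmeasDT (fun m hm => hbound m hm ξ)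
  · exact ae_of_all _ (fun _ => hb)
  · have : IntegrableOn (fun _ : A0.G K => ∑' ξ, b ξ) D.DT D.μT :=
      integrableOn_const (measure_DT_lt_top D hG.measured).ne (by simp)
    exact this
  · refine ae_restrict_of_forall_mem hmeasDT (fun m hm => ?_)
    have hsum : Summable (fun ξ : K × K => D.F g (m * mg) (ratV ξ)) := by
      refine Summable.of_norm_bounded hb (fun ξ => ?_)
      have h1 := hbound m hm ξ
      have hmT : InTorus1 D.t D.n m := hG.measured.dom_sub m hm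
      have hadm' : Adm D.t D.n g (m * mg) := adm_torus1_mul112 hadm hmT
      rw [hfun, norm_mul, norm_chi112 D hG.torus hadm'.1, mul_one] at h1
      exact h1
    exact hsum.hasSum.mul_right _

theorem integrable_hfun112 (hG : D.Good) (hadm : Adm D.t D.n g mg) {ξ₀ : K × K}
    (hξ₀ : ξ₀ ≠ 0) : Integrable (fun m => hfun D g mg m ξ₀) D.μT := by
  have hM := hG.measured
  have := smulInv_gammaT D hM
  obtain ⟨b, hb, hb0, hbound⟩ := exists_bound112 D hG hadm
  refine ⟨?_, ?_⟩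
  · have := (continuousOn_hfun112 D hG hadm ξ₀).aestronglyMeasurable
      (μ := D.μT) (measurableSet_torus1 D hM)
    rwa [restrict_torus1 D hM] at this
  · rw [hasFiniteIntegral_def, (isFundDom112 D hM).lintegral_eq_tsum']
    have hterm : ∀ γ : gammaT D.t D.n,
        ∫⁻ x in D.DT, ‖hfun D g mg (γ⁻¹ • x) ξ₀‖ₑ ∂D.μT
          ≤ ENNReal.ofReal (b (mulK D.t D.n (coordK γ) ξ₀)) * D.μT D.DT := by
      intro γ
      rw [← setLIntegral_const]
      refine setLIntegral_mono' hM.dom_meas (fun x hx => ?_)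
      rw [hfun_smul112 D hG hadm γ (hM.dom_sub x hx), ← ofReal_norm]
      exact ENNReal.ofReal_le_ofReal (hbound x hx _)
    have hinj : Function.Injective (fun γ : gammaT D.t D.n => mulK D.t D.n (coordK γ) ξ₀) :=
      fun γ γ' h => coordK_injective (mulK_left_injective hG.torus.irred hξ₀ h)
    calc ∑' γ : gammaT D.t D.n, ∫⁻ x in D.DT, ‖hfun D g mg (γ⁻¹ • x) ξ₀‖ₑ ∂D.μT
        ≤ ∑' γ : gammaT D.t D.n,
            ENNReal.ofReal (b (mulK D.t D.n (coordK γ) ξ₀)) * D.μT D.DT :=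
          ENNReal.tsum_le_tsum hterm
      _ = (∑' γ : gammaT D.t D.n, ENNReal.ofReal (b (mulK D.t D.n (coordK γ) ξ₀)))
            * D.μT D.DT := ENNReal.tsum_mul_right
      _ ≤ (∑' ξ : K × K, ENNReal.ofReal (b ξ)) * D.μT D.DT := by
          gcongr
          exact ENNReal.tsum_comp_le_tsum_of_injective hinj (fun ξ => ENNReal.ofReal (b ξ))
      _ < ⊤ := ENNReal.mul_lt_top hb.tsum_ofReal_lt_top (measure_DT_lt_top D hM)

theorem integral_hfun_eq_tsum112 (hG : D.Good) (hadm : Adm D.t D.n g mg) {ξ₀ : K × K}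
    (hξ₀ : ξ₀ ≠ 0) :
    ∫ m, hfun D g mg m ξ₀ ∂D.μT
      = ∑' γ : gammaT D.t D.n, Ifun D g mg (mulK D.t D.n (coordK γ) ξ₀) := by
  have hM := hG.measured
  have := smulInv_gammaT D hM
  rw [(isFundDom112 D hM).integral_eq_tsum' _ (integrable_hfun112 D hG hadm hξ₀)]
  refine tsum_congr (fun γ => ?_)
  rw [Ifun]
  exact setIntegral_congr_fun hM.dom_meas
    (fun m hm => hfun_smul112 D hG hadm γ (hM.dom_sub m hm) ξ₀)

end Fermat.Agent.LT.A2.H112

end
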