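import Fermat.Agent.LT.A2.H112.Meas

/-!
# Row LT, tower A2, leaf A2.09 `ExpC` (helper112) -- part 3: diagonal and unipotent elements

OFF-MAIN.  The rational diagonal elements `diag(α, 1) = diag(α, α⁻¹) diag(1, α)`, admissible pairs,
and the KEY IDENTITY of the unfolding: for `ξ ∈ K²` with `Q(ξ) = α ≠ 0`, `y ∈ T(K)` the element
with coordinates `conj ξ` and every admissible pair `(g, M)`:

    F (diag(α, 1) g) (y M) (1, 0) = F g M ξ          (`diagK` and `torK` of `KData.IsWeil`).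
-/

set_option autoImplicit false
set_option linter.unusedSectionVars false

open IsDedekindDomain NumberField AutomorphicForm MeasureTheory
open scoped MatrixGroups Pointwise

noncomputable section

namespace Fermat.Agent.LT.A2.H112

open Fermat.Agent.LT.H130 Fermat.Agent.LT.H556 Fermat.Agent.LT.A2

variable {K : Type} [Field K] [NumberField K]

/-! ## Unipotent and diagonal elements -/

theorem det_upperUnip112 {nU : A0.Adl K → A0.G K} (h : IsUpperUnip nU) (x : A0.Adl K) :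
    Matrix.GeneralLinearGroup.det (nU x) = 1 := by
  apply Units.ext
  rw [coe_det112, h x, Matrix.det_fin_two_of]
  simp

/-- `diag(a, b) ∈ GL₂(K)`. -/
def diagGL (a b : Kˣ) : GL (Fin 2) K :=
  Matrix.GeneralLinearGroup.mkOfDetNeZero !![(a : K), 0; 0, (b : K)]
    (by rw [Matrix.det_fin_two_of]; simp)

theorem coe_ratG_diagGL (a b : Kˣ) :
    ((ratG (diagGL a b) : A0.G K) : Matrix (Fin 2) (Fin 2) (A0.Adl K))
      = !![algebraMap K (A0.Adl K) (a : K), 0; 0, algebraMap K (A0.Adl K) (b : K)] := by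
  ext i j
  show algebraMap K (A0.Adl K) ((diagGL a b : Matrix (Fin 2) (Fin 2) K) i j) = _
  fin_cases i <;> fin_cases j <;> simp [diagGL, Matrix.GeneralLinearGroup.mkOfDetNeZero]

theorem ratDiag_eq112 {d : Kˣ → A0.G K} (hd : IsRatDiag d) (α : Kˣ) :
    d α = ratG (diagGL α 1) := by
  apply Units.ext
  rw [hd α, coe_ratG_diagGL]
  simp

theorem ratDiag_mul112 {d : Kˣ → A0.G K} (hd : IsRatDiag d) (α β : Kˣ) :
    d (α * β) = d α * d β := by
  apply Units.ext
  rw [Units.val_mul, hd, hd, hd]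
  ext i j
  fin_cases i <;> fin_cases j <;> simp [Matrix.mul_apply, Fin.sum_univ_two]

theorem isDiagSL_diagGL (α : Kˣ) : IsDiagSL (ratG (diagGL α α⁻¹) : A0.G K) (α : K) := by
  show ((ratG (diagGL α α⁻¹) : A0.G K) : Matrix (Fin 2) (Fin 2) (A0.Adl K)) = _
  rw [coe_ratG_diagGL]
  simp

theorem isDiagOne_diagGL (α : Kˣ) : IsDiagOne (ratG (diagGL 1 α) : A0.G K) (α : K) := by
  show ((ratG (diagGL 1 α) : A0.G K) : Matrix (Fin 2) (Fin 2) (A0.Adl K)) = _
  rw [coe_ratG_diagGL]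
  simp

theorem ratDiag_decomp112 {d : Kˣ → A0.G K} (hd : IsRatDiag d) (α : Kˣ) :
    d α = ratG (diagGL α α⁻¹) * ratG (diagGL 1 α) := by
  apply Units.ext
  rw [Units.val_mul, hd, coe_ratG_diagGL, coe_ratG_diagGL]
  ext i j
  fin_cases i <;> fin_cases j <;> simp [Matrix.mul_apply, Fin.sum_univ_two]
  rw [← map_mul]
  simp

theorem det_ratG_diagGL (a b : Kˣ) :
    ((Matrix.GeneralLinearGroup.det (ratG (diagGL a b) : A0.G K) : (A0.Adl K)ˣ) : A0.Adl K)
      = algebraMap K (A0.Adl K) ((a : K) * (b : K)) := by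
  rw [coe_det112, coe_ratG_diagGL, Matrix.det_fin_two_of]
  simp

theorem det_ratDiag112 {d : Kˣ → A0.G K} (hd : IsRatDiag d) (α : Kˣ) :
    ((Matrix.GeneralLinearGroup.det (d α) : (A0.Adl K)ˣ) : A0.Adl K)
      = algebraMap K (A0.Adl K) (α : K) := by
  rw [coe_det112, hd α, Matrix.det_fin_two_of]
  simp

/-! ## Admissible pairs -/

theorem adm_torus1_mul112 {t n : K} {g mg m : A0.G K} (h : Adm t n g mg) (hm : InTorus1 t n m) :
    Adm t n g (m * mg) :=
  ⟨inTorus_mul112 hm.1 h.1, by rw [map_mul, hm.2, one_mul]; exact h.2⟩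

theorem adm_unip112 {t n : K} {g mg : A0.G K} {nU : A0.Adl K → A0.G K} (hU : IsUpperUnip nU)
    (x : A0.Adl K) (h : Adm t n g mg) : Adm t n (nU x * g) mg :=
  ⟨h.1, by rw [map_mul, det_upperUnip112 hU, one_mul]; exact h.2⟩

theorem inGPlus_unip_iff112 {t n : K} {g : A0.G K} {nU : A0.Adl K → A0.G K} (hU : IsUpperUnip nU)
    (x : A0.Adl K) : InGPlus t n (nU x * g) ↔ InGPlus t n g := by
  constructor
  · rintro ⟨m, hm1, hm2⟩
    refine ⟨m, hm1, ?_⟩
    rw [map_mul, det_upperUnip112 hU, one_mul] at hm2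
    exact hm2
  · rintro ⟨m, hm⟩
    exact ⟨m, adm_unip112 hU x hm⟩

/-! ## The key identity -/

theorem qK_conjK_ne_zero112 {t n : K} {ξ : K × K} {α : Kˣ} (hξ : qK t n ξ = (α : K)) :
    qK t n (conjK t ξ) ≠ 0 := by
  rw [qK_conjK, hξ]
  exact α.ne_zero

theorem key_identity112 (D : KData K) (hW : D.IsWeil) {d : Kˣ → A0.G K} (hd : IsRatDiag d)
    (α : Kˣ) (ξ : K × K) (hξ : qK D.t D.n ξ = (α : K)) (g M : A0.G K)
    (hadm : Adm D.t D.n g M) :
    D.F (d α * g) (tK D.t D.n (conjK D.t ξ) (qK_conjK_ne_zero112 hξ) * M) (1, 0)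
      = D.F g M (ratV ξ) := by
  set y : A0.G K := tK D.t D.n (conjK D.t ξ) (qK_conjK_ne_zero112 hξ) with hy
  have hy_rat : InTorusRat D.t D.n y := inTorusRat_tK _ _ _ _
  have hy_det : ((Matrix.GeneralLinearGroup.det y : (A0.Adl K)ˣ) : A0.Adl K)
      = algebraMap K (A0.Adl K) (α : K) := by
    rw [hy, det_tK, qK_conjK, hξ]
  have hadm1 : Adm D.t D.n (ratG (diagGL 1 α) * g) (y * M) := by
    refine ⟨inTorus_mul112 (inTorusRat_inTorus112 hy_rat) hadm.1, ?_⟩
    rw [map_mul, map_mul, hadm.2]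
    congr 1
    apply Units.ext
    rw [det_ratG_diagGL, hy_det]
    simp
  rw [ratDiag_decomp112 hd α, mul_assoc,
    hW.diagK _ (α : K) α.ne_zero (isDiagSL_diagGL α) _ _ _ hadm1,
    hW.torK y _ (α : K) hy_rat hy_det (isDiagOne_diagGL α) g M _ hadm]
  congr 1
  apply actV_inv_eq112
  rw [hy, actV_rat112 (coe_tK _ _ _ _) ξ, mulK_comm, mulK_conjK, hξ]
  simp [ratV, Algebra.algebraMap_eq_smul_one]

end Fermat.Agent.LT.A2.H112

end
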