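import Fermat.Agent.LT.A2.H112.Core

/-!
# Row LT, tower A2, leaf A2.09 `ExpC` (helper112) -- the unfolding

OFF-MAIN.  `expC_h112 : Fermat.Agent.LT.A2.ExpC` (VERBATIM the Prop of `LT/A2/Kernel.lean`,
origin/helper950@c68f91cb0, sha256 b74c9a55fd05d60f).

For good data `D`, a theta lift `φ` and a Whittaker function `W`:

* `W(n(x) g) = ψ(x) W(g)`   (`unip` with `Q(1, 0) = 1`);
* `φ(g) = ∑_{α ∈ K^×} W(diag(α, 1) g)`:  on `GL₂(𝔸)⁺` the kernel is summed over the fibres of `Q`;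
  the fibre over `0` is `{0}` (anisotropy) and its term is killed by `∫_{DT} χT = 0`; the fibre over
  `α ≠ 0` is empty (then `W(diag(α,1) g) = 0` by Hasse's norm theorem) or one orbit of `T¹(K)`
  (then the sum over the orbit unfolds `∫_{DT}` to `∫_{T¹(𝔸)}`, which is `W(diag(α,1) g)` by the
  key identity of `Diag.lean`).  Outside `GL₂(𝔸)⁺` both sides are translated by `diag(δ, 1)`.
-/

set_option autoImplicit false
set_option linter.unusedSectionVars false

open IsDedekindDomain NumberField AutomorphicForm MeasureTheory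
open scoped MatrixGroups Pointwise

noncomputable section

namespace Fermat.Agent.LT.A2.H112

open Fermat.Agent.LT.H130 Fermat.Agent.LT.H556 Fermat.Agent.LT.A2

variable {K : Type} [Field K] [NumberField K]

attribute [local instance] measG112 borelG112

variable (D : KData K) {g mg : A0.G K}

/-- `W(diag(α,1) g) = ∫_{T¹(𝔸)} h(m, ξ₀) dm` for every `ξ₀` with `Q(ξ₀) = α`. -/
theorem whit_eq_integral112 (hG : D.Good) {W : A0.G K → ℂ} (hW : D.IsWhit W)
    {d : Kˣ → A0.G K} (hd : IsRatDiag d) (α : Kˣ) (ξ₀ : K × K)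
    (hξ₀ : qK D.t D.n ξ₀ = (α : K)) (hadm : Adm D.t D.n g mg) :
    W (d α * g) = ∫ m, hfun D g mg m ξ₀ ∂D.μT := by
  have hM := hG.measured
  set y : A0.G K := tK D.t D.n (conjK D.t ξ₀) (qK_conjK_ne_zero112 hξ₀) with hy
  have hy_rat : InTorusRat D.t D.n y := inTorusRat_tK _ _ _ _
  have hy_tor : InTorus D.t D.n y := inTorusRat_inTorus112 hy_rat
  have hy_det : ((Matrix.GeneralLinearGroup.det y : (A0.Adl K)ˣ) : A0.Adl K)
      = algebraMap K (A0.Adl K) (α : K) := by
    rw [hy, det_tK, qK_conjK, hξ₀]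
  have hadm' : Adm D.t D.n (d α * g) (y * mg) := by
    refine ⟨inTorus_mul112 hy_tor hadm.1, ?_⟩
    rw [map_mul, map_mul, hadm.2]
    congr 1
    apply Units.ext
    rw [det_ratDiag112 hd, hy_det]
  rw [hW.formula _ _ hadm']
  show ∫ m in {m | InTorus1 D.t D.n m},
      D.F (d α * g) (m * (y * mg)) (1, 0) * D.χT (m * (y * mg)) ∂D.μT = _
  rw [restrict_torus1 D hM]
  apply integral_congr_ae
  filter_upwards [ae_mem_torus1 D hM] with m hm
  have hadm'' : Adm D.t D.n g (m * mg) := adm_torus1_mul112 hadm hm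
  have e1 : m * (y * mg) = y * (m * mg) := by
    rw [← mul_assoc, torus_comm112 hm.1 hy_tor, mul_assoc]
  rw [e1, hy, key_identity112 D hG.weil hd α ξ₀ hξ₀ g (m * mg) hadm'', ← hy,
    hG.torus.mul _ _ hy_tor hadm''.1, hG.torus.rat _ hy_rat, one_mul]
  rfl

/-- `W(diag(α,1) g) = 0` if `α` is not a value of `Q` (Hasse's norm theorem). -/
theorem whit_eq_zero112 (hH : HasseNormC) (hG : D.Good) {W : A0.G K → ℂ} (hW : D.IsWhit W)
    {d : Kˣ → A0.G K} (hd : IsRatDiag d) (α : Kˣ)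
    (hempty : ∀ ξ : K × K, qK D.t D.n ξ ≠ (α : K)) (hadm : Adm D.t D.n g mg) :
    W (d α * g) = 0 := by
  apply hW.off
  rintro ⟨m', hm'1, hm'2⟩
  have hT : InTorus D.t D.n (m' * mg⁻¹) := inTorus_mul112 hm'1 (inTorus_inv112 hadm.1)
  have hdet : ((Matrix.GeneralLinearGroup.det (m' * mg⁻¹) : (A0.Adl K)ˣ) : A0.Adl K)
      = algebraMap K (A0.Adl K) (α : K) := by
    rw [← det_ratDiag112 hd α]
    congr 1
    rw [map_mul, map_inv, ← hm'2, ← hadm.2, map_mul, mul_inv_cancel_right]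
  obtain ⟨y, ⟨a, b, hab⟩, hydet⟩ := hH K D.t D.n hG.torus.irred (α : K) (m' * mg⁻¹) hT hdet
  apply hempty (a, b)
  apply algebraMap_inj112
  rw [← hydet]
  exact (det_of_coord112 (c := (a, b)) hab).symm

/-- The expansion on `GL₂(𝔸_K)⁺`. -/
theorem hasSum_whit112 (hH : HasseNormC) (hG : D.Good) {φ W : A0.G K → ℂ}
    (hφ : D.IsLift φ) (hW : D.IsWhit W) {d : Kˣ → A0.G K} (hd : IsRatDiag d)
    (hadm : Adm D.t D.n g mg) : HasSum (fun α : Kˣ => W (d α * g)) (φ g) := by
  classical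
  have h1 := (hasSum_Ifun112 D hG hadm hφ).tsum_fiberwise (qK D.t D.n)
  have h2 : ∀ c : K, (∑' ξ : ↥((qK D.t D.n) ⁻¹' {c}), Ifun D g mg ξ)
      = if hc : c = 0 then 0 else W (d (Units.mk0 c hc) * g) := by
    intro c
    by_cases hc : c = 0
    · rw [dif_pos hc]
      have : ∀ ξ : ↥((qK D.t D.n) ⁻¹' {c}), Ifun D g mg ξ = 0 := by
        rintro ⟨ξ, hξ⟩
        have hξ' : qK D.t D.n ξ = 0 := by
          have : qK D.t D.n ξ = c := hξ
          rw [this, hc]
        show Ifun D g mg ξ = 0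
        rw [(qK_eq_zero_iff hG.torus.irred ξ).mp hξ']
        exact Ifun_zero112 D hG hadm
      rw [tsum_congr this, tsum_zero]
    · rw [dif_neg hc]
      by_cases hfib : ∃ ξ₀ : K × K, qK D.t D.n ξ₀ = c
      · obtain ⟨ξ₀, hξ₀⟩ := hfib
        have hξ₀ne : ξ₀ ≠ 0 := by
          intro h
          apply hc
          rw [← hξ₀, h]
          simp [qK]
        rw [whit_eq_integral112 D hG hW hd (Units.mk0 c hc) ξ₀ hξ₀ hadm,
          integral_hfun_eq_tsum112 D hG hadm hξ₀ne]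
        exact ((fiberEquiv hG.torus.irred hc ξ₀ hξ₀).tsum_eq
          (fun ξ : ↥((qK D.t D.n) ⁻¹' {c}) => Ifun D g mg ξ)).symm
      · have hempty : ∀ ξ : K × K, qK D.t D.n ξ ≠ c := fun ξ h => hfib ⟨ξ, h⟩
        have : IsEmpty ↥((qK D.t D.n) ⁻¹' {c}) := ⟨fun ξ => hempty ξ.1 ξ.2⟩
        rw [tsum_empty]
        exact (whit_eq_zero112 D hH hG hW hd (Units.mk0 c hc) hempty hadm).symm
  rw [funext h2] at h1
  have hinj : Function.Injective (fun α : Kˣ => (α : K)) := Units.val_injective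
  have hrange : ∀ x : K, x ∉ Set.range (fun α : Kˣ => (α : K)) →
      (fun c : K => if hc : c = 0 then (0 : ℂ) else W (d (Units.mk0 c hc) * g)) x = 0 := by
    intro x hx
    have hx0 : x = 0 := by
      by_contra h
      exact hx ⟨Units.mk0 x h, rfl⟩
    simp [hx0]
  have h3 := (hinj.hasSum_iff hrange).mpr h1
  have h4 : ((fun c : K => if hc : c = 0 then (0 : ℂ) else W (d (Units.mk0 c hc) * g))
      ∘ fun α : Kˣ => (α : K)) = fun α : Kˣ => W (d α * g) := by
    funext α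
    simp only [Function.comp]
    rw [dif_neg α.ne_zero, Units.mk0_val]
  rw [h4] at h3
  exact h3

/-- `W(n(x) g) = ψ(x) W(g)`. -/
theorem whit_unip112 (hG : D.Good) {W : A0.G K → ℂ} (hW : D.IsWhit W)
    {nU : A0.Adl K → A0.G K} (hU : IsUpperUnip nU) (x : A0.Adl K) (g : A0.G K) :
    W (nU x * g) = D.ψ x * W g := by
  by_cases hg : InGPlus D.t D.n g
  · obtain ⟨mg, hadm⟩ := hg
    have hM := hG.measured
    rw [hW.formula _ mg (adm_unip112 hU x hadm), hW.formula g mg hadm]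
    show ∫ m in {m | InTorus1 D.t D.n m},
        D.F (nU x * g) (m * mg) (1, 0) * D.χT (m * mg) ∂D.μT
      = D.ψ x * ∫ m in {m | InTorus1 D.t D.n m},
          D.F g (m * mg) (1, 0) * D.χT (m * mg) ∂D.μT
    rw [restrict_torus1 D hM, ← integral_const_mul]
    apply integral_congr_ae
    filter_upwards [ae_mem_torus1 D hM] with m hm
    rw [hG.weil.unip nU hU x g (m * mg) _ (adm_torus1_mul112 hadm hm)]
    have : qf D.t D.n ((1 : A0.Adl K), (0 : A0.Adl K)) = 1 := by simp [qf]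
    rw [this, mul_one, mul_assoc]
  · rw [hW.off g hg, hW.off _ (fun h => hg ((inGPlus_unip_iff112 hU x).mp h)), mul_zero]

theorem det_ratG112 (γ : GL (Fin 2) K) :
    ((Matrix.GeneralLinearGroup.det (ratG γ : A0.G K) : (A0.Adl K)ˣ) : A0.Adl K)
      = algebraMap K (A0.Adl K) ((Matrix.GeneralLinearGroup.det γ : Kˣ) : K) := by
  rw [coe_det112]
  show ((γ : Matrix (Fin 2) (Fin 2) K).map (algebraMap K (A0.Adl K))).det = _
  rw [Matrix.GeneralLinearGroup.val_det_apply]
  exact (RingHom.map_det (algebraMap K (A0.Adl K)) _).symm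

/-- The expansion, everywhere. -/
theorem expansion112 (hH : HasseNormC) (hG : D.Good) {φ W : A0.G K → ℂ}
    (hφ : D.IsLift φ) (hW : D.IsWhit W) {d : Kˣ → A0.G K} (hd : IsRatDiag d) (g : A0.G K) :
    φ g = ∑' α : Kˣ, W (d α * g) := by
  by_cases hex : ∃ γ : GL (Fin 2) K, InGPlus D.t D.n (ratG γ * g)
  · obtain ⟨γ, m', hm'⟩ := hex
    set δ : Kˣ := Matrix.GeneralLinearGroup.det γ with hδ
    have hadm2 : Adm D.t D.n (d δ * g) m' := by
      refine ⟨hm'.1, ?_⟩
      rw [← hm'.2, map_mul, map_mul]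
      congr 1
      apply Units.ext
      rw [det_ratDiag112 hd, det_ratG112]
    have h1 := (hasSum_whit112 D hH hG hφ hW hd hadm2).tsum_eq
    have h2 : φ (d δ * g) = φ g := by
      rw [ratDiag_eq112 hd δ]
      exact hφ.left_inv _ g
    rw [← h2, ← h1]
    have h3 : ∀ α : Kˣ, W (d α * (d δ * g)) = W (d (α * δ) * g) := by
      intro α
      rw [ratDiag_mul112 hd, mul_assoc]
    rw [tsum_congr h3]
    exact (Equiv.mulRight δ).tsum_eq (fun α => W (d α * g))
  · have hex' : ∀ γ : GL (Fin 2) K, ¬ InGPlus D.t D.n (ratG γ * g) :=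
      fun γ h => hex ⟨γ, h⟩
    rw [hφ.off g hex']
    have : ∀ α : Kˣ, W (d α * g) = 0 := fun α =>
      hW.off _ (by rw [ratDiag_eq112 hd α]; exact hex' _)
    rw [tsum_congr this, tsum_zero]

/-- **Leaf A2.09 `ExpC`** (unfolding), VERBATIM the Prop of `LT/A2/Kernel.lean`. -/
theorem expC_h112 : ExpC := by
  intro hH K _ _ D hG _ φ W hφ hW
  exact ⟨fun nU hU x g => whit_unip112 D hG hW hU x g,
    fun d hd g => expansion112 D hH hG hφ hW hd g⟩

end Fermat.Agent.LT.A2.H112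

end
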