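import Fermat.Agent.LT.A2.H112.Exp
import Fermat.Agent.LT.A2.TopTC

/-!
# Row LT, tower A2, leaf A2.09b `ExpAtC` (Spec v2) (helper112)

OFF-MAIN.  `expAtC_h112 : Fermat.Agent.LT.A2.ExpAtC` (VERBATIM the Prop of `LT/A2/TopTC.lean`,
origin/helper950@1a40ac0ee, sha256 a69a6790dbd13651): the unfolding with Hasse's norm theorem
assumed for the ONE torus `(K, D.t, D.n)` only.  Same proof as `Exp.lean`; Hasse's theorem is
used once, in `whit_eq_zero_at112`.
-/

set_option autoImplicit false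
set_option linter.unusedSectionVars false

open IsDedekindDomain NumberField AutomorphicForm MeasureTheory
open scoped MatrixGroups Pointwise

noncomputable section

namespace Fermat.Agent.LT.A2.H112

open Fermat.Agent.LT.H130 Fermat.Agent.LT.H556 Fermat.Agent.LT.A2

variable {K : Type} [Field K] [NumberField K]

attribute [local instance] measG112 borelG112

variable (D : KData K) {g mg : A0.G K}

/-- `W(diag(α,1) g) = 0` if `α` is not a value of `Q` (Hasse's norm theorem for ONE torus). -/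
theorem whit_eq_zero_at112 (hH : HasseNormAt K D.t D.n) {W : A0.G K → ℂ}
    (hW : D.IsWhit W) {d : Kˣ → A0.G K} (hd : IsRatDiag d) (α : Kˣ)
    (hempty : ∀ ξ : K × K, qK D.t D.n ξ ≠ (α : K)) (hadm : Adm D.t D.n g mg) :
    W (d α * g) = 0 := by
  apply hW.off
  rintro ⟨m', hm'1, hm'2⟩
  have hT : InTorus D.t D.n (m' * mg⁻¹) := inTorus_mul112 hm'1 (inTorus_inv112 hadm.1)
  have hdet : ((Matrix.GeneralLinearGroup.det (m' * mg⁻¹) : (A0.Adl K)ˣ) : A0.Adl K)
      = algebraMap K (A0.Adl K) (α : K) := by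
    rw [← det_ratDiag112 hd α]
    congr 1
    rw [map_mul, map_inv, ← hm'2, ← hadm.2, map_mul, mul_inv_cancel_right]
  obtain ⟨y, ⟨a, b, hab⟩, hydet⟩ := hH (α : K) (m' * mg⁻¹) hT hdet
  apply hempty (a, b)
  apply algebraMap_inj112
  rw [← hydet]
  exact (det_of_coord112 (c := (a, b)) hab).symm

/-- The expansion on `GL₂(𝔸_K)⁺`. -/
theorem hasSum_whit_at112 (hH : HasseNormAt K D.t D.n) (hG : D.Good) {φ W : A0.G K → ℂ}
    (hφ : D.IsLift φ) (hW : D.IsWhit W) {d : Kˣ → A0.G K} (hd : IsRatDiag d)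
    (hadm : Adm D.t D.n g mg) : HasSum (fun α : Kˣ => W (d α * g)) (φ g) := by
  classical
  have h1 := (hasSum_Ifun112 D hG hadm hφ).tsum_fiberwise (qK D.t D.n)
  have h2 : ∀ c : K, (∑' ξ : ↥((qK D.t D.n) ⁻¹' {c}), Ifun D g mg ξ)
      = if hc : c = 0 then 0 else W (d (Units.mk0 c hc) * g) := by
    intro c
    by_cases hc : c = 0
    · rw [dif_pos hc]
      have : ∀ ξ : ↥((qK D.t D.n) ⁻¹' {c}), Ifun D g mg ξ = 0 := by
        rintro ⟨ξ, hξ⟩
        have hξ' : qK D.t D.n ξ = 0 := by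
          have : qK D.t D.n ξ = c := hξ
          rw [this, hc]
        show Ifun D g mg ξ = 0
        rw [(qK_eq_zero_iff hG.torus.irred ξ).mp hξ']
        exact Ifun_zero112 D hG hadm
      rw [tsum_congr this, tsum_zero]
    · rw [dif_neg hc]
      by_cases hfib : ∃ ξ₀ : K × K, qK D.t D.n ξ₀ = c
      · obtain ⟨ξ₀, hξ₀⟩ := hfib
        have hξ₀ne : ξ₀ ≠ 0 := by
          intro h
          apply hc
          rw [← hξ₀, h]
          simp [qK]
        rw [whit_eq_integral112 D hG hW hd (Units.mk0 c hc) ξ₀ hξ₀ hadm,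
          integral_hfun_eq_tsum112 D hG hadm hξ₀ne]
        exact ((fiberEquiv hG.torus.irred hc ξ₀ hξ₀).tsum_eq
          (fun ξ : ↥((qK D.t D.n) ⁻¹' {c}) => Ifun D g mg ξ)).symm
      · have hempty : ∀ ξ : K × K, qK D.t D.n ξ ≠ c := fun ξ h => hfib ⟨ξ, h⟩
        have : IsEmpty ↥((qK D.t D.n) ⁻¹' {c}) := ⟨fun ξ => hempty ξ.1 ξ.2⟩
        rw [tsum_empty]
        exact (whit_eq_zero_at112 D hH hW hd (Units.mk0 c hc) hempty hadm).symm
  rw [funext h2] at h1
  have hinj : Function.Injective (fun α : Kˣ => (α : K)) := Units.val_injective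
  have hrange : ∀ x : K, x ∉ Set.range (fun α : Kˣ => (α : K)) →
      (fun c : K => if hc : c = 0 then (0 : ℂ) else W (d (Units.mk0 c hc) * g)) x = 0 := by
    intro x hx
    have hx0 : x = 0 := by
      by_contra h
      exact hx ⟨Units.mk0 x h, rfl⟩
    simp [hx0]
  have h3 := (hinj.hasSum_iff hrange).mpr h1
  have h4 : ((fun c : K => if hc : c = 0 then (0 : ℂ) else W (d (Units.mk0 c hc) * g))
      ∘ fun α : Kˣ => (α : K)) = fun α : Kˣ => W (d α * g) := by
    funext α
    simp only [Function.comp]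
    rw [dif_neg α.ne_zero, Units.mk0_val]
  rw [h4] at h3
  exact h3

/-- The expansion, everywhere. -/
theorem expansion_at112 (hH : HasseNormAt K D.t D.n) (hG : D.Good) {φ W : A0.G K → ℂ}
    (hφ : D.IsLift φ) (hW : D.IsWhit W) {d : Kˣ → A0.G K} (hd : IsRatDiag d) (g : A0.G K) :
    φ g = ∑' α : Kˣ, W (d α * g) := by
  by_cases hex : ∃ γ : GL (Fin 2) K, InGPlus D.t D.n (ratG γ * g)
  · obtain ⟨γ, m', hm'⟩ := hex
    set δ : Kˣ := Matrix.GeneralLinearGroup.det γ with hδ
    have hadm2 : Adm D.t D.n (d δ * g) m' := by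
      refine ⟨hm'.1, ?_⟩
      rw [← hm'.2, map_mul, map_mul]
      congr 1
      apply Units.ext
      rw [det_ratDiag112 hd, det_ratG112]
    have h1 := (hasSum_whit_at112 D hH hG hφ hW hd hadm2).tsum_eq
    have h2 : φ (d δ * g) = φ g := by
      rw [ratDiag_eq112 hd δ]
      exact hφ.left_inv _ g
    rw [← h2, ← h1]
    have h3 : ∀ α : Kˣ, W (d α * (d δ * g)) = W (d (α * δ) * g) := by
      intro α
      rw [ratDiag_mul112 hd, mul_assoc]
    rw [tsum_congr h3]
    exact (Equiv.mulRight δ).tsum_eq (fun α => W (d α * g))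
  · have hex' : ∀ γ : GL (Fin 2) K, ¬ InGPlus D.t D.n (ratG γ * g) :=
      fun γ h => hex ⟨γ, h⟩
    rw [hφ.off g hex']
    have : ∀ α : Kˣ, W (d α * g) = 0 := fun α =>
      hW.off _ (by rw [ratDiag_eq112 hd α]; exact hex' _)
    rw [tsum_congr this, tsum_zero]

/-- **Leaf A2.09b `ExpAtC`** (Spec v2), VERBATIM the Prop of `LT/A2/TopTC.lean`. -/
theorem expAtC_h112 : ExpAtC := by
  intro K _ _ D hH hG _ φ W hφ hW
  exact ⟨fun nU hU x g => whit_unip112 D hG hW hU x g,
    fun d hd g => expansion_at112 D hH hG hφ hW hd g⟩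

end Fermat.Agent.LT.A2.H112

end
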