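import Fermat.Agent.LT.A2.H112.Torus

/-!
# Row LT, tower A2, leaf A2.09 `ExpC` (helper112) -- part 2: the norm-one torus and its measure

OFF-MAIN.  `T¹(𝔸_K)` and `T¹(K)` as subgroups of `GL₂(𝔸_K)`; `DT` is a fundamental domain of
`T¹(K)` for the measure `μT` (in the sense of Mathlib); `T¹(𝔸_K)` is a Borel set carrying `μT`;
`∫_{DT} χT = 0` for a torus character which is not trivial on `T¹(𝔸_K)`.
-/

set_option autoImplicit false
set_option linter.unusedSectionVars false

open IsDedekindDomain NumberField AutomorphicForm MeasureTheory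
open scoped MatrixGroups Pointwise

noncomputable section

namespace Fermat.Agent.LT.A2.H112

open Fermat.Agent.LT.H130 Fermat.Agent.LT.H556 Fermat.Agent.LT.A2

variable {K : Type} [Field K] [NumberField K]

/-- The Borel σ-algebra of `GL₂(𝔸_K)` (the one of `KData.μT`). -/
local instance measG112 : MeasurableSpace (A0.G K) := borel (A0.G K)

local instance borelG112 : BorelSpace (A0.G K) := ⟨rfl⟩

/-- `T¹(𝔸_K)` as a subgroup of `GL₂(𝔸_K)`. -/
def torus1 (t n : K) : Subgroup (A0.G K) where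
  carrier := {m | InTorus1 t n m}
  mul_mem' := fun h h' => inTorus1_mul112 h h'
  one_mem' := inTorus1_one112 t n
  inv_mem' := fun h => inTorus1_inv112 h

/-- `T¹(K)` as a subgroup of `GL₂(𝔸_K)`. -/
def gammaT (t n : K) : Subgroup (A0.G K) where
  carrier := {y | InTorusRat t n y ∧ InTorus1 t n y}
  mul_mem' := fun h h' => ⟨inTorusRat_mul112 h.1 h'.1, inTorus1_mul112 h.2 h'.2⟩
  one_mem' := ⟨inTorusRat_one112 t n, inTorus1_one112 t n⟩
  inv_mem' := fun h => ⟨inTorusRat_inv112 h.1, inTorus1_inv112 h.2⟩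

theorem mem_torus1 {t n : K} {m : A0.G K} : m ∈ torus1 t n ↔ InTorus1 t n m := Iff.rfl

theorem mem_gammaT {t n : K} {m : A0.G K} :
    m ∈ gammaT t n ↔ InTorusRat t n m ∧ InTorus1 t n m := Iff.rfl

theorem smul_def_gammaT {t n : K} (γ : gammaT t n) (x : A0.G K) : γ • x = (γ : A0.G K) * x := rfl

theorem smul_def_torus1 {t n : K} (c : torus1 t n) (x : A0.G K) : c • x = (c : A0.G K) * x := rfl

/-- The coordinates of an element of `T¹(K)`. -/
def coordK {t n : K} (γ : gammaT t n) : K × K :=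
  (Classical.choose γ.2.1, Classical.choose (Classical.choose_spec γ.2.1))

theorem coe_eq_coordK {t n : K} (γ : gammaT t n) :
    ((γ : A0.G K) : Matrix (Fin 2) (Fin 2) (A0.Adl K))
      = torMat (algebraMap K (A0.Adl K) t) (algebraMap K (A0.Adl K) n)
          (algebraMap K (A0.Adl K) (coordK γ).1) (algebraMap K (A0.Adl K) (coordK γ).2) :=
  Classical.choose_spec (Classical.choose_spec γ.2.1)

theorem qK_coordK {t n : K} (γ : gammaT t n) : qK t n (coordK γ) = 1 := by
  apply algebraMap_inj112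
  rw [← det_of_coord112 (coe_eq_coordK γ), γ.2.2.2, map_one]
  rfl

theorem coordK_injective {t n : K} : Function.Injective (coordK : gammaT t n → K × K) := by
  intro γ γ' h
  apply Subtype.ext
  apply Units.ext
  rw [coe_eq_coordK γ, coe_eq_coordK γ', h]

instance countable_gammaT (t n : K) : Countable (gammaT t n) := by
  have : Countable K := countableK112 K
  exact coordK_injective.countable

theorem actV_gammaT {t n : K} (γ : gammaT t n) (ξ : K × K) :
    actV (γ : A0.G K) (ratV ξ) = ratV (mulK t n (coordK γ) ξ) :=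
  actV_rat112 (coe_eq_coordK γ) ξ

/-- The fibre of `Q` over `α ≠ 0` is a torsor under `T¹(K)`. -/
def fiberEquiv {t n : K} (hirr : ∀ x : K, x ^ 2 - t * x + n ≠ 0) {α : K} (hα : α ≠ 0)
    (ξ₀ : K × K) (h₀ : qK t n ξ₀ = α) : gammaT t n ≃ ↥((qK t n) ⁻¹' {α}) :=
  Equiv.ofBijective
    (fun γ => ⟨mulK t n (coordK γ) ξ₀, by
      show qK t n (mulK t n (coordK γ) ξ₀) = α
      rw [qK_mulK, qK_coordK, one_mul, h₀]⟩)
    (by
      have hξ₀ : ξ₀ ≠ 0 := by
        intro h
        apply hα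
        rw [← h₀, h]
        simp [qK]
      constructor
      · intro γ γ' h
        have h1 : mulK t n (coordK γ) ξ₀ = mulK t n (coordK γ') ξ₀ := congrArg Subtype.val h
        exact coordK_injective (mulK_left_injective hirr hξ₀ h1)
      · rintro ⟨ξ', hξ'⟩
        have hξ'q : qK t n ξ' = α := hξ'
        set c : K × K := mulK t n (α⁻¹, 0) (mulK t n ξ' (conjK t ξ₀)) with hc
        have hqc : qK t n c = 1 := by
          rw [hc, qK_mulK, qK_mulK, qK_conjK, hξ'q, h₀]
          simp only [qK]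
          field_simp
          ring
        have hcne : qK t n c ≠ 0 := by rw [hqc]; exact one_ne_zero
        have hmem : tK t n c hcne ∈ gammaT t n := by
          refine ⟨inTorusRat_tK t n c hcne, inTorusRat_inTorus112 (inTorusRat_tK t n c hcne), ?_⟩
          apply Units.ext
          rw [det_tK, hqc, map_one]
          rfl
        refine ⟨⟨tK t n c hcne, hmem⟩, ?_⟩
        apply Subtype.ext
        show mulK t n (coordK ⟨tK t n c hcne, hmem⟩) ξ₀ = ξ'
        have hcoord : coordK ⟨tK t n c hcne, hmem⟩ = c := by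
          have h1 := coe_eq_coordK (⟨tK t n c hcne, hmem⟩ : gammaT t n)
          have h2 : ((⟨tK t n c hcne, hmem⟩ : gammaT t n) : A0.G K) = tK t n c hcne := rfl
          rw [h2, coe_tK] at h1
          obtain ⟨e1, e2⟩ := torMat_inj112 h1
          exact Prod.ext (algebraMap_inj112 e1.symm) (algebraMap_inj112 e2.symm)
        rw [hcoord, hc, mulK_assoc, mulK_assoc, mulK_comm t n (conjK t ξ₀) ξ₀, mulK_conjK, h₀,
          mulK_comm t n ξ' (α, 0), ← mulK_assoc]
        have : mulK t n (α⁻¹, 0) (α, 0) = (1, 0) := by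
          simp only [mulK]; ext <;> simp [hα]
        rw [this, mulK_one_left])

theorem fiberEquiv_apply {t n : K} (hirr : ∀ x : K, x ^ 2 - t * x + n ≠ 0) {α : K} (hα : α ≠ 0)
    (ξ₀ : K × K) (h₀ : qK t n ξ₀ = α) (γ : gammaT t n) :
    ((fiberEquiv hirr hα ξ₀ h₀ γ : ↥((qK t n) ⁻¹' {α})) : K × K) = mulK t n (coordK γ) ξ₀ := rfl

instance smulComm112 (t n : K) : SMulCommClass (torus1 t n) (gammaT t n) (A0.G K) where
  smul_comm := by
    intro c γ x
    show (c : A0.G K) * ((γ : A0.G K) * x) = (γ : A0.G K) * ((c : A0.G K) * x)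
    rw [← mul_assoc, ← mul_assoc, torus_comm112 c.2.1 γ.2.2.1]

/-! ## The measure -/

section Data

variable (D : KData K)

theorem smulInv_torus1 (hM : D.IsMeasured) :
    SMulInvariantMeasure (torus1 D.t D.n) (A0.G K) D.μT := by
  constructor
  intro c s _
  have hset : (fun x : A0.G K => c • x) ⁻¹' s = (fun m => (c⁻¹ : torus1 D.t D.n).1 * m) '' s := by
    ext x
    constructor
    · intro hx
      refine ⟨c • x, hx, ?_⟩
      show ((c⁻¹ : torus1 D.t D.n) : A0.G K) * ((c : A0.G K) * x) = x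
      rw [← mul_assoc, ← Subgroup.coe_mul, inv_mul_cancel, Subgroup.coe_one, one_mul]
    · rintro ⟨y, hy, rfl⟩
      show c • (((c⁻¹ : torus1 D.t D.n) : A0.G K) * y) ∈ s
      have : c • (((c⁻¹ : torus1 D.t D.n) : A0.G K) * y) = y := by
        show (c : A0.G K) * (((c⁻¹ : torus1 D.t D.n) : A0.G K) * y) = y
        rw [← mul_assoc, ← Subgroup.coe_mul, mul_inv_cancel, Subgroup.coe_one, one_mul]
      rw [this]
      exact hy
  rw [hset]
  exact hM.inv _ (c⁻¹).2 s

theorem smulInv_gammaT (hM : D.IsMeasured) :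
    SMulInvariantMeasure (gammaT D.t D.n) (A0.G K) D.μT := by
  constructor
  intro c s hs
  have := (smulInv_torus1 D hM).measure_preimage_smul (⟨c.1, c.2.2⟩ : torus1 D.t D.n) hs
  exact this

theorem ae_mem_torus1 (hM : D.IsMeasured) : ∀ᵐ m ∂D.μT, InTorus1 D.t D.n m := by
  have h := hM.carried
  rw [measure_eq_zero_iff_ae_notMem] at h
  filter_upwards [h] with m hm
  by_contra hcon
  exact hm hcon

theorem torus1_eq_iUnion (hM : D.IsMeasured) :
    {m : A0.G K | InTorus1 D.t D.n m} = ⋃ γ : gammaT D.t D.n, γ • D.DT := by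
  ext x
  simp only [Set.mem_ofPred_eq, Set.mem_iUnion]
  constructor
  · intro hx
    obtain ⟨y, ⟨hy1, hy2, hy3⟩, -⟩ := hM.dom_fund x hx
    refine ⟨(⟨y, hy1, hy2⟩ : gammaT D.t D.n)⁻¹, ?_⟩
    refine ⟨y * x, hy3, ?_⟩
    show ((⟨y, hy1, hy2⟩ : gammaT D.t D.n)⁻¹ : gammaT D.t D.n).1 * (y * x) = x
    rw [Subgroup.coe_inv, ← mul_assoc]
    show y⁻¹ * y * x = x
    rw [inv_mul_cancel, one_mul]
  · rintro ⟨γ, d, hd, rfl⟩
    exact inTorus1_mul112 γ.2.2 (hM.dom_sub d hd)

theorem measurableSet_torus1 (hM : D.IsMeasured) :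
    MeasurableSet {m : A0.G K | InTorus1 D.t D.n m} := by
  rw [torus1_eq_iUnion D hM]
  exact MeasurableSet.iUnion fun γ => hM.dom_meas.const_smul γ

theorem restrict_torus1 (hM : D.IsMeasured) :
    D.μT.restrict {m : A0.G K | InTorus1 D.t D.n m} = D.μT :=
  Measure.restrict_eq_self_of_ae_mem (ae_mem_torus1 D hM)

theorem measure_DT_lt_top (hM : D.IsMeasured) : D.μT D.DT < ⊤ := by
  obtain ⟨C, hC, hsub⟩ := hM.dom_compact
  exact lt_of_le_of_lt (measure_mono hsub) (hM.compact_lt C hC)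

theorem isFundDom112 (hM : D.IsMeasured) :
    IsFundamentalDomain (gammaT D.t D.n) D.DT D.μT where
  nullMeasurableSet := hM.dom_meas.nullMeasurableSet
  ae_covers := by
    filter_upwards [ae_mem_torus1 D hM] with x hx
    obtain ⟨y, ⟨hy1, hy2, hy3⟩, -⟩ := hM.dom_fund x hx
    exact ⟨⟨y, hy1, hy2⟩, hy3⟩
  aedisjoint := by
    intro γ₁ γ₂ hne
    apply Disjoint.aedisjoint
    rw [Set.disjoint_left]
    rintro x ⟨d₁, hd₁, rfl⟩ ⟨d₂, hd₂, hx⟩
    apply hne
    have hx' : (γ₂ : A0.G K) * d₂ = (γ₁ : A0.G K) * d₁ := hx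
    have hxT : InTorus1 D.t D.n ((γ₁ : A0.G K) * d₁) :=
      inTorus1_mul112 γ₁.2.2 (hM.dom_sub d₁ hd₁)
    obtain ⟨y, -, huniq⟩ := hM.dom_fund _ hxT
    have h1 : ((γ₁⁻¹ : gammaT D.t D.n) : A0.G K) = y := by
      apply huniq
      refine ⟨(γ₁⁻¹).2.1, (γ₁⁻¹).2.2, ?_⟩
      rw [Subgroup.coe_inv, ← mul_assoc, inv_mul_cancel, one_mul]
      exact hd₁
    have h2 : ((γ₂⁻¹ : gammaT D.t D.n) : A0.G K) = y := by
      apply huniq
      refine ⟨(γ₂⁻¹).2.1, (γ₂⁻¹).2.2, ?_⟩
      rw [← hx', Subgroup.coe_inv, ← mul_assoc, inv_mul_cancel, one_mul]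
      exact hd₂
    have h3 : (γ₁⁻¹ : gammaT D.t D.n) = γ₂⁻¹ := Subtype.ext (h1.trans h2.symm)
    exact inv_injective h3

/-- The integral of a torus character, not trivial on `T¹`, over the fundamental domain is `0`. -/
theorem integral_chi_zero112 (hM : D.IsMeasured) (hT : IsTorusChar D.t D.n D.χT) :
    ∫ m in D.DT, D.χT m ∂D.μT = 0 := by
  classical
  have := smulInv_torus1 D hM
  have := smulInv_gammaT D hM
  obtain ⟨m₀, hm₀, hχ⟩ := hT.nontriv
  set c₀ : torus1 D.t D.n := ⟨m₀, hm₀⟩ with hc₀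
  set f : A0.G K → ℂ := fun m => if InTorus1 D.t D.n m then D.χT m else 0 with hf
  have hfd := isFundDom112 D hM
  have hfd' : IsFundamentalDomain (gammaT D.t D.n) (c₀ • D.DT) D.μT := hfd.smul_of_comm c₀
  have hiff : ∀ (y x : A0.G K), InTorus1 D.t D.n y →
      (InTorus1 D.t D.n (y * x) ↔ InTorus1 D.t D.n x) := by
    intro y x hy
    constructor
    · intro h
      have := inTorus1_mul112 (inTorus1_inv112 hy) h
      rwa [← mul_assoc, inv_mul_cancel, one_mul] at this
    · intro h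
      exact inTorus1_mul112 hy h
  have hinv : ∀ (γ : gammaT D.t D.n) (x : A0.G K), f (γ • x) = f x := by
    intro γ x
    simp only [hf, smul_def_gammaT]
    by_cases hx : InTorus1 D.t D.n x
    · rw [if_pos hx, if_pos ((hiff _ _ γ.2.2).mpr hx), hT.mul _ _ γ.2.2.1 hx.1, hT.rat _ γ.2.1,
        one_mul]
    · rw [if_neg hx, if_neg (fun h => hx ((hiff _ _ γ.2.2).mp h))]
  have hmul : ∀ x : A0.G K, f (c₀ • x) = D.χT m₀ * f x := by
    intro x
    simp only [hf, smul_def_torus1]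
    by_cases hx : InTorus1 D.t D.n x
    · rw [if_pos hx, if_pos ((hiff _ _ hm₀).mpr hx)]
      exact hT.mul _ _ hm₀.1 hx.1
    · rw [if_neg hx, if_neg (fun h => hx ((hiff _ _ hm₀).mp h)), mul_zero]
  have e0 : ∫ m in D.DT, D.χT m ∂D.μT = ∫ m in D.DT, f m ∂D.μT := by
    apply setIntegral_congr_fun hM.dom_meas
    intro m hm
    simp only [hf]
    rw [if_pos (hM.dom_sub m hm)]
  have e1 : ∫ m in D.DT, f m ∂D.μT = ∫ m in c₀ • D.DT, f m ∂D.μT :=
    hfd.setIntegral_eq hfd' hinv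
  have e2 : ∫ m in c₀ • D.DT, f m ∂D.μT = ∫ m in D.DT, f (c₀ • m) ∂D.μT := by
    have hmp := measurePreserving_smul c₀ D.μT
    have hemb : MeasurableEmbedding (fun x : A0.G K => c₀ • x) := measurableEmbedding_const_smul c₀
    have := hmp.setIntegral_image_emb hemb f D.DT
    rw [Set.image_smul] at this
    exact this
  have e3 : ∫ m in D.DT, f (c₀ • m) ∂D.μT = D.χT m₀ * ∫ m in D.DT, f m ∂D.μT := by
    simp_rw [hmul]
    exact integral_const_mul _ _
  have e4 : ∫ m in D.DT, f m ∂D.μT = D.χT m₀ * ∫ m in D.DT, f m ∂D.μT :=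
    e1.trans (e2.trans e3)
  rw [e0]
  have e5 : (1 - D.χT m₀) * ∫ m in D.DT, f m ∂D.μT = 0 := by
    rw [sub_mul, one_mul, ← e4, sub_self]
  rcases mul_eq_zero.mp e5 with h | h
  · exact absurd (sub_eq_zero.mp h).symm hχ
  · exact h

end Data

end Fermat.Agent.LT.A2.H112

end
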