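import Fermat.Agent.LT.A2.Kernel

/-!
# Row LT, tower A2, leaf A2.09 `ExpC` (helper112) -- part 1: the algebra of the torus

OFF-MAIN.  Elementary facts about the matrices `torMat t n a b = [[a, -n b], [b, a + t b]]`
(multiplication by `a + b ω`, `ω² - t ω + n = 0`, in the basis `1, ω`), the predicates `InTorus`,
`InTorusRat`, `InTorus1`, `Adm`, `InGPlus` of `Kernel.lean`, and the action `actV` on `𝔸_K²`.
Everything here is algebra; no measure, no topology.
-/

set_option autoImplicit false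
set_option linter.unusedSectionVars false

open IsDedekindDomain NumberField AutomorphicForm
open scoped MatrixGroups

noncomputable section

namespace Fermat.Agent.LT.A2.H112

open Fermat.Agent.LT.H130 Fermat.Agent.LT.H556 Fermat.Agent.LT.A2

/-! ## Matrices -/

section Mat

variable {R : Type*} [CommRing R]

theorem torMat_mul112 (t n a b c d : R) :
    torMat t n a b * torMat t n c d
      = torMat t n (a * c - n * b * d) (a * d + b * c + t * b * d) := by
  ext i j
  fin_cases i <;> fin_cases j <;> simp [torMat, Matrix.mul_apply, Fin.sum_univ_two] <;> ring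

theorem torMat_det112 (t n a b : R) :
    (torMat t n a b).det = a ^ 2 + t * a * b + n * b ^ 2 := by
  simp [torMat, Matrix.det_fin_two]
  ring

theorem torMat_one112 (t n : R) : torMat t n 1 0 = 1 := by
  ext i j
  fin_cases i <;> fin_cases j <;> simp [torMat]

theorem torMat_comm112 (t n a b c d : R) :
    torMat t n a b * torMat t n c d = torMat t n c d * torMat t n a b := by
  rw [torMat_mul112, torMat_mul112]
  congr 1 <;> ring

theorem torMat_inj112 {t n a b c d : R} (h : torMat t n a b = torMat t n c d) :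
    a = c ∧ b = d := by
  have h0 := congrFun (congrFun h 0) 0
  have h1 := congrFun (congrFun h 1) 0
  simp [torMat] at h0 h1
  exact ⟨h0, h1⟩

end Mat

/-! ## The adelic torus -/

section Torus

variable {K : Type} [Field K] [NumberField K]

instance nontrivialAdl112 : Nontrivial (A0.Adl K) := by
  unfold A0.Adl NumberField.AdeleRing
  infer_instance

theorem countableK112 (K : Type) [Field K] [NumberField K] : Countable K := by
  have h := Algebraic.countable (R := ℚ) (A := K)
  have h2 : {x : K | IsAlgebraic ℚ x} = Set.univ := by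
    ext x; simp [Algebra.IsAlgebraic.isAlgebraic x]
  rw [h2] at h
  exact Set.countable_univ_iff.mp h

theorem algebraMap_inj112 : Function.Injective (algebraMap K (A0.Adl K)) :=
  (algebraMap K (A0.Adl K)).injective

/-- The rational binary form `Q(x, y) = x² + t x y + n y²` on `K²`. -/
def qK (t n : K) (ξ : K × K) : K := ξ.1 ^ 2 + t * ξ.1 * ξ.2 + n * ξ.2 ^ 2

/-- Multiplication of `K ⊕ K ω`. -/
def mulK (t n : K) (c ξ : K × K) : K × K :=
  (c.1 * ξ.1 - n * c.2 * ξ.2, c.1 * ξ.2 + c.2 * ξ.1 + t * c.2 * ξ.2)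

/-- Conjugation of `K ⊕ K ω`. -/
def conjK (t : K) (c : K × K) : K × K := (c.1 + t * c.2, -c.2)

theorem qK_mulK (t n : K) (c ξ : K × K) : qK t n (mulK t n c ξ) = qK t n c * qK t n ξ := by
  simp only [qK, mulK]; ring

theorem qK_conjK (t n : K) (c : K × K) : qK t n (conjK t c) = qK t n c := by
  simp only [qK, conjK]; ring

theorem mulK_conjK (t n : K) (c : K × K) : mulK t n c (conjK t c) = (qK t n c, 0) := by
  simp only [qK, mulK, conjK]; ext <;> simp <;> ring

theorem mulK_comm (t n : K) (c ξ : K × K) : mulK t n c ξ = mulK t n ξ c := by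
  simp only [mulK]; ext <;> simp <;> ring

theorem mulK_assoc (t n : K) (a b c : K × K) :
    mulK t n (mulK t n a b) c = mulK t n a (mulK t n b c) := by
  simp only [mulK]; ext <;> simp <;> ring

theorem mulK_one_left (t n : K) (ξ : K × K) : mulK t n (1, 0) ξ = ξ := by
  simp only [mulK]; ext <;> simp

theorem mulK_scalar (t n : K) (a : K) (ξ : K × K) : mulK t n (a, 0) ξ = (a * ξ.1, a * ξ.2) := by
  simp only [mulK]; ext <;> simp

/-- Anisotropy: if `X² - tX + n` has no root in `K` then `Q(ξ) = 0` only for `ξ = 0`. -/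
theorem qK_eq_zero_iff {t n : K} (hirr : ∀ x : K, x ^ 2 - t * x + n ≠ 0) (ξ : K × K) :
    qK t n ξ = 0 ↔ ξ = 0 := by
  constructor
  · intro h
    by_cases hy : ξ.2 = 0
    · have hx : ξ.1 = 0 := by
        simp only [qK, hy] at h
        simpa using h
      exact Prod.ext hx hy
    · exfalso
      apply hirr (-(ξ.1 / ξ.2))
      have : (-(ξ.1 / ξ.2)) ^ 2 - t * (-(ξ.1 / ξ.2)) + n = qK t n ξ / ξ.2 ^ 2 := by
        simp only [qK]; field_simp; ring
      rw [this, h, zero_div]
  · rintro rfl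
    simp [qK]

theorem mulK_left_injective {t n : K} (hirr : ∀ x : K, x ^ 2 - t * x + n ≠ 0) {ξ : K × K}
    (hξ : ξ ≠ 0) {c c' : K × K} (h : mulK t n c ξ = mulK t n c' ξ) : c = c' := by
  have h1 : mulK t n (c - c') ξ = 0 := by
    have : mulK t n (c - c') ξ = mulK t n c ξ - mulK t n c' ξ := by
      simp only [mulK]; ext <;> simp <;> ring
    rw [this, h, sub_self]
  have h2 : qK t n (c - c') * qK t n ξ = 0 := by
    rw [← qK_mulK, h1]; simp [qK]
  rcases mul_eq_zero.mp h2 with h3 | h3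
  · exact sub_eq_zero.mp ((qK_eq_zero_iff hirr _).mp h3)
  · exact absurd ((qK_eq_zero_iff hirr _).mp h3) hξ

end Torus

/-! ## The torus inside `GL₂(𝔸_K)` -/

section GK

variable {K : Type} [Field K] [NumberField K]

theorem coe_det112 (m : A0.G K) :
    ((Matrix.GeneralLinearGroup.det m : (A0.Adl K)ˣ) : A0.Adl K)
      = (m : Matrix (Fin 2) (Fin 2) (A0.Adl K)).det := rfl

theorem inTorus_one112 (t n : K) : InTorus t n (1 : A0.G K) :=
  ⟨1, 0, by rw [torMat_one112]; rfl⟩

theorem inTorus_mul112 {t n : K} {m m' : A0.G K} (h : InTorus t n m) (h' : InTorus t n m') :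
    InTorus t n (m * m') := by
  obtain ⟨a, b, hab⟩ := h
  obtain ⟨c, d, hcd⟩ := h'
  refine ⟨a * c - algebraMap K (A0.Adl K) n * b * d,
    a * d + b * c + algebraMap K (A0.Adl K) t * b * d, ?_⟩
  rw [Units.val_mul, hab, hcd, torMat_mul112]

theorem inTorus_inv112 {t n : K} {m : A0.G K} (h : InTorus t n m) : InTorus t n m⁻¹ := by
  obtain ⟨a, b, hab⟩ := h
  set δ : (A0.Adl K)ˣ := Matrix.GeneralLinearGroup.det m with hδ
  have hdet : (δ : A0.Adl K) = a ^ 2 + algebraMap K (A0.Adl K) t * a * b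
      + algebraMap K (A0.Adl K) n * b ^ 2 := by
    rw [hδ, coe_det112, hab, torMat_det112]
  refine ⟨(a + algebraMap K (A0.Adl K) t * b) * ((δ⁻¹ : (A0.Adl K)ˣ) : A0.Adl K),
    -b * ((δ⁻¹ : (A0.Adl K)ˣ) : A0.Adl K), ?_⟩
  apply Units.inv_eq_of_mul_eq_one_right
  rw [hab, torMat_mul112]
  have h1 : a * ((a + algebraMap K (A0.Adl K) t * b) * ((δ⁻¹ : (A0.Adl K)ˣ) : A0.Adl K))
      - algebraMap K (A0.Adl K) n * b * (-b * ((δ⁻¹ : (A0.Adl K)ˣ) : A0.Adl K)) = 1 := by
    have : a * ((a + algebraMap K (A0.Adl K) t * b) * ((δ⁻¹ : (A0.Adl K)ˣ) : A0.Adl K))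
      - algebraMap K (A0.Adl K) n * b * (-b * ((δ⁻¹ : (A0.Adl K)ˣ) : A0.Adl K))
        = (δ : A0.Adl K) * ((δ⁻¹ : (A0.Adl K)ˣ) : A0.Adl K) := by
      rw [hdet]; ring
    rw [this, Units.mul_inv]
  have h2 : a * (-b * ((δ⁻¹ : (A0.Adl K)ˣ) : A0.Adl K))
      + b * ((a + algebraMap K (A0.Adl K) t * b) * ((δ⁻¹ : (A0.Adl K)ˣ) : A0.Adl K))
      + algebraMap K (A0.Adl K) t * b * (-b * ((δ⁻¹ : (A0.Adl K)ˣ) : A0.Adl K)) = 0 := by
    ring
  rw [h1, h2, torMat_one112]

theorem torus_comm112 {t n : K} {m m' : A0.G K} (h : InTorus t n m) (h' : InTorus t n m') :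
    m * m' = m' * m := by
  obtain ⟨a, b, hab⟩ := h
  obtain ⟨c, d, hcd⟩ := h'
  apply Units.ext
  rw [Units.val_mul, Units.val_mul, hab, hcd, torMat_comm112]

theorem inTorusRat_inTorus112 {t n : K} {m : A0.G K} (h : InTorusRat t n m) : InTorus t n m := by
  obtain ⟨a, b, hab⟩ := h
  exact ⟨_, _, hab⟩

theorem inTorusRat_one112 (t n : K) : InTorusRat t n (1 : A0.G K) :=
  ⟨1, 0, by rw [map_one, map_zero, torMat_one112]; rfl⟩

theorem inTorusRat_mul112 {t n : K} {m m' : A0.G K} (h : InTorusRat t n m)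
    (h' : InTorusRat t n m') : InTorusRat t n (m * m') := by
  obtain ⟨a, b, hab⟩ := h
  obtain ⟨c, d, hcd⟩ := h'
  refine ⟨a * c - n * b * d, a * d + b * c + t * b * d, ?_⟩
  rw [Units.val_mul, hab, hcd, torMat_mul112]
  simp only [map_sub, map_add, map_mul]

/-- The determinant of a rational torus element, in coordinates. -/
theorem det_of_coord112 {t n : K} {m : A0.G K} {c : K × K}
    (h : (m : Matrix (Fin 2) (Fin 2) (A0.Adl K))
      = torMat (algebraMap K (A0.Adl K) t) (algebraMap K (A0.Adl K) n)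
          (algebraMap K (A0.Adl K) c.1) (algebraMap K (A0.Adl K) c.2)) :
    ((Matrix.GeneralLinearGroup.det m : (A0.Adl K)ˣ) : A0.Adl K)
      = algebraMap K (A0.Adl K) (qK t n c) := by
  rw [coe_det112, h, torMat_det112]
  simp only [qK, map_add, map_mul, map_pow]

theorem qK_ne_zero_of_coord112 {t n : K} {m : A0.G K} {c : K × K}
    (h : (m : Matrix (Fin 2) (Fin 2) (A0.Adl K))
      = torMat (algebraMap K (A0.Adl K) t) (algebraMap K (A0.Adl K) n)
          (algebraMap K (A0.Adl K) c.1) (algebraMap K (A0.Adl K) c.2)) :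
    qK t n c ≠ 0 := by
  intro h0
  have h1 := det_of_coord112 h
  rw [h0, map_zero] at h1
  exact (Matrix.GeneralLinearGroup.det m).ne_zero h1

/-- The rational torus element with coordinates `c`, `Q(c) ≠ 0`. -/
def tK (t n : K) (c : K × K) (hc : qK t n c ≠ 0) : A0.G K :=
  Matrix.GeneralLinearGroup.mk''
    (torMat (algebraMap K (A0.Adl K) t) (algebraMap K (A0.Adl K) n)
      (algebraMap K (A0.Adl K) c.1) (algebraMap K (A0.Adl K) c.2))
    (by
      have : (torMat (algebraMap K (A0.Adl K) t) (algebraMap K (A0.Adl K) n)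
          (algebraMap K (A0.Adl K) c.1) (algebraMap K (A0.Adl K) c.2)).det
            = algebraMap K (A0.Adl K) (qK t n c) := by
        rw [torMat_det112]; simp only [qK, map_add, map_mul, map_pow]
      rw [this]
      exact (IsUnit.mk0 _ hc).map (algebraMap K (A0.Adl K)))

theorem coe_tK (t n : K) (c : K × K) (hc : qK t n c ≠ 0) :
    ((tK t n c hc : A0.G K) : Matrix (Fin 2) (Fin 2) (A0.Adl K))
      = torMat (algebraMap K (A0.Adl K) t) (algebraMap K (A0.Adl K) n)
          (algebraMap K (A0.Adl K) c.1) (algebraMap K (A0.Adl K) c.2) := rfl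

theorem inTorusRat_tK (t n : K) (c : K × K) (hc : qK t n c ≠ 0) :
    InTorusRat t n (tK t n c hc) := ⟨c.1, c.2, coe_tK t n c hc⟩

theorem det_tK (t n : K) (c : K × K) (hc : qK t n c ≠ 0) :
    ((Matrix.GeneralLinearGroup.det (tK t n c hc) : (A0.Adl K)ˣ) : A0.Adl K)
      = algebraMap K (A0.Adl K) (qK t n c) :=
  det_of_coord112 (coe_tK t n c hc)

theorem inTorusRat_inv112 {t n : K} {m : A0.G K} (h : InTorusRat t n m) :
    InTorusRat t n m⁻¹ := by
  obtain ⟨a, b, hab⟩ := h
  have hq : qK t n (a, b) ≠ 0 := qK_ne_zero_of_coord112 (c := (a, b)) hab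
  have hqdef : qK t n (a, b) = a ^ 2 + t * a * b + n * b ^ 2 := rfl
  generalize qK t n (a, b) = q at hq hqdef
  refine ⟨(a + t * b) / q, -b / q, ?_⟩
  apply Units.inv_eq_of_mul_eq_one_right
  rw [hab, torMat_mul112]
  have e1 : a * ((a + t * b) / q) - n * b * (-b / q) = 1 := by
    have : a * ((a + t * b) / q) - n * b * (-b / q) = (a ^ 2 + t * a * b + n * b ^ 2) / q := by
      field_simp; ring
    rw [this, ← hqdef, div_self hq]
  have e2 : a * (-b / q) + b * ((a + t * b) / q) + t * b * (-b / q) = 0 := by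
    field_simp; ring
  have h1 : algebraMap K (A0.Adl K) a * algebraMap K (A0.Adl K) ((a + t * b) / q)
      - algebraMap K (A0.Adl K) n * algebraMap K (A0.Adl K) b
        * algebraMap K (A0.Adl K) (-b / q) = 1 := by
    rw [← map_mul, ← map_mul, ← map_mul, ← map_sub, e1, map_one]
  have h2 : algebraMap K (A0.Adl K) a * algebraMap K (A0.Adl K) (-b / q)
      + algebraMap K (A0.Adl K) b * algebraMap K (A0.Adl K) ((a + t * b) / q)
      + algebraMap K (A0.Adl K) t * algebraMap K (A0.Adl K) b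
        * algebraMap K (A0.Adl K) (-b / q) = 0 := by
    rw [← map_mul, ← map_mul, ← map_mul, ← map_mul, ← map_add, ← map_add, e2, map_zero]
  rw [h1, h2, torMat_one112]

theorem inTorus1_one112 (t n : K) : InTorus1 t n (1 : A0.G K) :=
  ⟨inTorus_one112 t n, map_one _⟩

theorem inTorus1_mul112 {t n : K} {m m' : A0.G K} (h : InTorus1 t n m) (h' : InTorus1 t n m') :
    InTorus1 t n (m * m') :=
  ⟨inTorus_mul112 h.1 h'.1, by rw [map_mul, h.2, h'.2, one_mul]⟩

theorem inTorus1_inv112 {t n : K} {m : A0.G K} (h : InTorus1 t n m) : InTorus1 t n m⁻¹ :=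
  ⟨inTorus_inv112 h.1, by rw [map_inv, h.2, inv_one]⟩

/-! ## The action on `𝔸_K²` -/

theorem actV_one112 (ξ : A0.Adl K × A0.Adl K) : actV (1 : A0.G K) ξ = ξ := by
  simp [actV]

theorem actV_mul112 (m m' : A0.G K) (ξ : A0.Adl K × A0.Adl K) :
    actV (m * m') ξ = actV m (actV m' ξ) := by
  simp only [actV, Units.val_mul, Matrix.mul_apply, Fin.sum_univ_two]
  ext <;> simp <;> ring

theorem actV_zero112 (m : A0.G K) : actV m (0 : A0.Adl K × A0.Adl K) = 0 := by
  simp [actV]

theorem actV_inv_eq112 {m : A0.G K} {v w : A0.Adl K × A0.Adl K} (h : actV m w = v) :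
    actV m⁻¹ v = w := by
  rw [← h, ← actV_mul112, inv_mul_cancel, actV_one112]

theorem actV_rat112 {t n : K} {y : A0.G K} {c : K × K}
    (hy : (y : Matrix (Fin 2) (Fin 2) (A0.Adl K))
      = torMat (algebraMap K (A0.Adl K) t) (algebraMap K (A0.Adl K) n)
          (algebraMap K (A0.Adl K) c.1) (algebraMap K (A0.Adl K) c.2)) (ξ : K × K) :
    actV y (ratV ξ) = ratV (mulK t n c ξ) := by
  simp only [actV, ratV, hy, mulK, torMat]
  ext <;> simp <;> ring

theorem ratV_zero112 : ratV (0 : K × K) = (0 : A0.Adl K × A0.Adl K) := by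
  simp [ratV]

theorem ratV_injective112 : Function.Injective (ratV : K × K → A0.Adl K × A0.Adl K) := by
  intro a b h
  simp only [ratV, Prod.mk.injEq] at h
  exact Prod.ext (algebraMap_inj112 h.1) (algebraMap_inj112 h.2)

end GK

end Fermat.Agent.LT.A2.H112

end
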